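import Mathlib

/-!
# Binary cubic forms represent a nonzero integer finitely often (from Thue's theorem)

`ThueStmt` is Thue's theorem (1909) for irreducible forms of degree `≥ 3`.  A binary cubic form with
nonzero discriminant is either irreducible (up to its content) or the product of a linear form and
a quadratic form without common zero; in the second case the finiteness is elementary.
-/

namespace Fermat.Agent.Cor.Mord

open Polynomial

/-- Thue's theorem (1909): a Thue equation has finitely many solutions. -/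
def ThueStmt : Prop := ∀ F : ℤ[X], Irreducible F → 3 ≤ F.natDegree → ∀ m : ℤ, m ≠ 0 →
  {P : ℤ × ℤ | ∑ i ∈ Finset.range (F.natDegree + 1),
    F.coeff i * P.1 ^ i * P.2 ^ (F.natDegree - i) = m}.Finite

/-- a quadratic equation has finitely many solutions -/
theorem quad_finite {D : ℤ} (hD : D ≠ 0) (E G : ℤ) : {y : ℤ | D * y ^ 2 + E * y + G = 0}.Finite := by
  set P : ℤ[X] := C D * X ^ 2 + C E * X + C G with hP
  have hP0 : P ≠ 0 := by
    intro h
    have h1 : P.coeff 2 = 0 := by rw [h]; simp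
    simp only [hP, coeff_add, coeff_C_mul, coeff_X_pow, coeff_X, coeff_C] at h1
    norm_num at h1
    exact hD h1
  refine (P.roots.toFinset.finite_toSet).subset fun y hy => ?_
  have hy' : D * y ^ 2 + E * y + G = 0 := hy
  rw [Finset.mem_coe, Multiset.mem_toFinset, mem_roots hP0, IsRoot.def, hP]
  simp only [eval_add, eval_mul, eval_C, eval_pow, eval_X]
  exact hy'

/-- a line and a conic without common direction -/
theorem line_conic_finite {α β A B C : ℤ} (h : A * β ^ 2 - B * α * β + C * α ^ 2 ≠ 0) (e e' : ℤ) :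
    {P : ℤ × ℤ | α * P.1 + β * P.2 = e ∧ A * P.1 ^ 2 + B * P.1 * P.2 + C * P.2 ^ 2 = e'}.Finite := by
  by_cases hα : α = 0
  · subst hα
    have hβ : β ≠ 0 := by rintro rfl; simp at h
    have hA : A ≠ 0 := by rintro rfl; simp at h
    refine Set.Finite.of_finite_image (f := Prod.fst)
      ((quad_finite (D := A * β ^ 2) (mul_ne_zero hA (pow_ne_zero 2 hβ)) (B * β * e)
        (C * e ^ 2 - β ^ 2 * e')).subset ?_) ?_
    · rintro x ⟨⟨x', y⟩, ⟨h1, h2⟩, rfl⟩
      simp only at h1 h2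
      simp only [Set.mem_ofPred_eq]
      rw [← h1, ← h2]; ring
    · rintro ⟨x, y⟩ ⟨h1, -⟩ ⟨x', y'⟩ ⟨h3, -⟩ h5
      simp only at h1 h3 h5
      have h6 : β * y = β * y' := by linarith
      rw [h5, mul_left_cancel₀ hβ h6]
  · refine Set.Finite.of_finite_image (f := Prod.snd)
      ((quad_finite (D := A * β ^ 2 - B * α * β + C * α ^ 2) h (-2 * A * β * e + B * α * e)
        (A * e ^ 2 - α ^ 2 * e')).subset ?_) ?_
    · rintro x ⟨⟨x', y⟩, ⟨h1, h2⟩, rfl⟩
      simp only at h1 h2
      simp only [Set.mem_ofPred_eq]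
      rw [← h1, ← h2]; ring
    · rintro ⟨x, y⟩ ⟨h1, -⟩ ⟨x', y'⟩ ⟨h3, -⟩ h5
      simp only at h1 h3 h5
      have h6 : α * x = α * x' := by rw [h5] at h1; linarith
      rw [h5, mul_left_cancel₀ hα h6]

/-- a linear form times a quadratic form -/
theorem prod_finite {α β A B C N : ℤ} (h : A * β ^ 2 - B * α * β + C * α ^ 2 ≠ 0) (hN : N ≠ 0) :
    {P : ℤ × ℤ | (α * P.1 + β * P.2) * (A * P.1 ^ 2 + B * P.1 * P.2 + C * P.2 ^ 2) = N}.Finite := by
  have hfin : (Set.Icc (-|N|) |N|).Finite := Set.finite_Icc _ _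
  refine (hfin.biUnion fun e _ => line_conic_finite h e (N / e)).subset ?_
  rintro ⟨x, y⟩ hP
  simp only [Set.mem_ofPred_eq] at hP
  simp only [Set.mem_iUnion, Set.mem_ofPred_eq]
  have hdvd : (α * x + β * y) ∣ N := ⟨_, hP.symm⟩
  have h0 : α * x + β * y ≠ 0 := by intro h1; rw [h1, zero_mul] at hP; exact hN hP.symm
  refine ⟨α * x + β * y, ?_, rfl, ?_⟩
  · rw [Set.mem_Icc, ← abs_le]
    exact Int.le_of_dvd (abs_pos.2 hN) ((abs_dvd_abs _ _).2 hdvd)
  · rw [← hP, Int.mul_ediv_cancel_left _ h0]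

/-- the discriminant of a binary cubic form -/
def disc (a b c d : ℤ) : ℤ :=
  b ^ 2 * c ^ 2 - 4 * a * c ^ 3 - 4 * b ^ 3 * d - 27 * a ^ 2 * d ^ 2 + 18 * a * b * c * d

/-- the reducible case -/
theorem cubic_finite_of_zero {a b c d : ℤ} (h : disc a b c d ≠ 0) {r s : ℤ}
    (hrs : r ≠ 0 ∨ s ≠ 0) (h0 : a * r ^ 3 + b * r ^ 2 * s + c * r * s ^ 2 + d * s ^ 3 = 0)
    {m : ℤ} (hm : m ≠ 0) :
    {P : ℤ × ℤ | a * P.1 ^ 3 + b * P.1 ^ 2 * P.2 + c * P.1 * P.2 ^ 2 + d * P.2 ^ 3 = m}.Finite := by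
  by_cases hs : s = 0
  · subst hs
    have hr : r ≠ 0 := by simpa using hrs
    have ha : a = 0 := by
      have h1 : a * r ^ 3 = 0 := by linarith [h0]
      exact (mul_eq_zero.1 h1).resolve_right (pow_ne_zero 3 hr)
    subst ha
    have hb : b ≠ 0 := by rintro rfl; apply h; simp [disc]
    refine (prod_finite (α := 0) (β := 1) (A := b) (B := c) (C := d) (N := m) (by simpa using hb)
      hm).subset fun P hP => ?_
    simp only [Set.mem_ofPred_eq] at hP ⊢
    rw [← hP]; ring
  · have hsQ : (s : ℚ) ≠ 0 := by exact_mod_cast hs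
    refine (prod_finite (α := s) (β := -r) (A := a * s ^ 2) (B := b * s ^ 2 + a * r * s)
      (C := c * s ^ 2 + b * r * s + a * r ^ 2) (N := s ^ 3 * m) ?_
      (mul_ne_zero (pow_ne_zero 3 hs) hm)).subset fun P hP => ?_
    · intro h1
      have h2 : s ^ 2 * (3 * a * r ^ 2 + 2 * b * r * s + c * s ^ 2) * s ^ 0 = 0 := by
        rw [← h1]; ring
      have h3 : 3 * a * r ^ 2 + 2 * b * r * s + c * s ^ 2 = 0 := by
        rw [pow_zero, mul_one] at h2
        exact (mul_eq_zero.1 h2).resolve_left (pow_ne_zero 2 hs)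
      apply h
      -- over `ℚ`
      set ρ : ℚ := r / s with hρ
      have hr : (r : ℚ) = ρ * s := by rw [hρ]; field_simp
      have e1 : (c : ℚ) = -3 * a * ρ ^ 2 - 2 * b * ρ := by
        have h4 : (3 * a * r ^ 2 + 2 * b * r * s + c * s ^ 2 : ℚ) = 0 := by exact_mod_cast h3
        rw [hr] at h4
        have h5 : ((3 * a * ρ ^ 2 + 2 * b * ρ + c : ℚ)) * s ^ 2 = 0 := by rw [← h4]; ring
        have h6 := (mul_eq_zero.1 h5).resolve_right (pow_ne_zero 2 hsQ)
        linarith
      have e2 : (d : ℚ) = 2 * a * ρ ^ 3 + b * ρ ^ 2 := by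
        have h4 : (a * r ^ 3 + b * r ^ 2 * s + c * r * s ^ 2 + d * s ^ 3 : ℚ) = 0 := by
          exact_mod_cast h0
        rw [hr] at h4
        have h5 : ((a * ρ ^ 3 + b * ρ ^ 2 + c * ρ + d : ℚ)) * s ^ 3 = 0 := by rw [← h4]; ring
        have h6 := (mul_eq_zero.1 h5).resolve_right (pow_ne_zero 3 hsQ)
        rw [e1] at h6
        linarith
      have h7 : ((disc a b c d : ℤ) : ℚ) = 0 := by
        rw [disc]; push_cast; rw [e2, e1]; ring
      exact_mod_cast h7
    · simp only [Set.mem_ofPred_eq] at hP ⊢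
      rw [← hP]
      linear_combination (-P.2 ^ 3) * h0

/-- **Binary cubic forms**: a binary cubic form over `ℤ` with nonzero discriminant represents a
nonzero integer only finitely often (from Thue's theorem). -/
theorem cubic_finite (hT : ThueStmt) {a b c d : ℤ} (h : disc a b c d ≠ 0) {m : ℤ} (hm : m ≠ 0) :
    {P : ℤ × ℤ | a * P.1 ^ 3 + b * P.1 ^ 2 * P.2 + c * P.1 * P.2 ^ 2 + d * P.2 ^ 3 = m}.Finite := by
  by_cases hz : ∃ r s : ℤ, (r ≠ 0 ∨ s ≠ 0) ∧
      a * r ^ 3 + b * r ^ 2 * s + c * r * s ^ 2 + d * s ^ 3 = 0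
  · obtain ⟨r, s, h1, h2⟩ := hz
    exact cubic_finite_of_zero h h1 h2 hm
  push Not at hz
  have ha : a ≠ 0 := by
    rintro rfl
    exact hz 1 0 (Or.inl one_ne_zero) (by ring)
  set F : ℤ[X] := C a * X ^ 3 + C b * X ^ 2 + C c * X + C d with hF
  have hdeg : F.natDegree = 3 := natDegree_cubic ha
  have hc0 : F.coeff 0 = d := by
    simp only [hF, coeff_add, coeff_C_mul, coeff_X_pow, coeff_X, coeff_C]
    norm_num
  have hc1 : F.coeff 1 = c := by
    simp only [hF, coeff_add, coeff_C_mul, coeff_X_pow, coeff_X, coeff_C]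
    norm_num
  have hc2 : F.coeff 2 = b := by
    simp only [hF, coeff_add, coeff_C_mul, coeff_X_pow, coeff_X, coeff_C]
    norm_num
  have hc3 : F.coeff 3 = a := by
    simp only [hF, coeff_add, coeff_C_mul, coeff_X_pow, coeff_X, coeff_C]
    norm_num
  have hF0 : F ≠ 0 := by rintro h; rw [h] at hdeg; simp at hdeg
  have hcont : F.content ≠ 0 := by rwa [Ne, content_eq_zero_iff]
  have hirr : Irreducible F.primPart := by
    rw [IsPrimitive.Int.irreducible_iff_irreducible_map_cast F.isPrimitive_primPart]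
    have hd2 : (F.primPart.map (Int.castRingHom ℚ)).natDegree = 3 := by
      rw [natDegree_map_eq_of_injective (Int.castRingHom ℚ).injective_int, natDegree_primPart, hdeg]
    rw [irreducible_iff_roots_eq_zero_of_degree_le_three (by rw [hd2]; norm_num)
      (by rw [hd2])]
    rw [Multiset.eq_zero_iff_forall_notMem]
    intro ρ hρ
    have hne : F.primPart.map (Int.castRingHom ℚ) ≠ 0 := by
      intro h1; rw [h1] at hd2; simp at hd2
    rw [mem_roots hne, IsRoot.def] at hρ
    have h1 : (F.map (Int.castRingHom ℚ)).eval ρ = 0 := by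
      conv_lhs => rw [F.eq_C_content_mul_primPart]
      rw [Polynomial.map_mul, eval_mul, hρ, mul_zero]
    rw [hF] at h1
    simp only [Polynomial.map_add, Polynomial.map_mul, Polynomial.map_pow, map_C, map_X,
      eval_add, eval_mul, eval_pow, eval_C, eval_X] at h1
    simp only [eq_intCast] at h1
    refine hz ρ.num ρ.den (Or.inr (by exact_mod_cast ρ.den_ne_zero)) ?_
    have hd : (ρ.den : ℚ) ≠ 0 := by exact_mod_cast ρ.den_ne_zero
    have h2 : ρ * ρ.den = ρ.num := Rat.mul_den_eq_num ρ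
    have h3 : ((a * ρ.num ^ 3 + b * ρ.num ^ 2 * ρ.den + c * ρ.num * ρ.den ^ 2
        + d * ρ.den ^ 3 : ℤ) : ℚ) = 0 := by
      push_cast
      rw [← h2]
      have h4 : (a * (ρ * ρ.den) ^ 3 + b * (ρ * ρ.den) ^ 2 * ρ.den + c * (ρ * ρ.den) * ρ.den ^ 2
        + d * ρ.den ^ 3 : ℚ) = (a * ρ ^ 3 + b * ρ ^ 2 + c * ρ + d) * ρ.den ^ 3 := by ring
      rw [h4, h1, zero_mul]
    exact_mod_cast h3
  have hdeg' : F.primPart.natDegree = 3 := by rw [natDegree_primPart, hdeg]
  -- the form
  have key : ∀ x y : ℤ, a * x ^ 3 + b * x ^ 2 * y + c * x * y ^ 2 + d * y ^ 3 =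
      F.content * ∑ i ∈ Finset.range (F.primPart.natDegree + 1),
        F.primPart.coeff i * x ^ i * y ^ (F.primPart.natDegree - i) := by
    intro x y
    have hco : ∀ i, F.coeff i = F.content * F.primPart.coeff i := by
      intro i
      conv_lhs => rw [F.eq_C_content_mul_primPart]
      rw [coeff_C_mul]
    rw [hdeg', Finset.sum_range_succ, Finset.sum_range_succ, Finset.sum_range_succ,
      Finset.sum_range_succ, Finset.sum_range_zero, ← hc0, ← hc1, ← hc2, ← hc3, hco 0, hco 1,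
      hco 2, hco 3]
    norm_num
    ring
  by_cases hdvd : F.content ∣ m
  · obtain ⟨m', rfl⟩ := hdvd
    refine (hT F.primPart hirr (by rw [hdeg']) m' (right_ne_zero_of_mul hm)).subset fun P hP => ?_
    simp only [Set.mem_ofPred_eq] at hP ⊢
    rw [key] at hP
    exact mul_left_cancel₀ hcont hP
  · convert Set.finite_empty
    rw [Set.eq_empty_iff_forall_notMem]
    intro P hP
    simp only [Set.mem_ofPred_eq] at hP
    rw [key] at hP
    exact hdvd ⟨_, hP.symm⟩

end Fermat.Agent.Cor.Mord
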