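import Fermat.Agent.Corollaries.Mord.Quad
import Fermat.Agent.Corollaries.Thue.Equation

/-!
# Mordell's theorem

`y ^ 2 = x ^ 3 + k` has finitely many integral solutions for every integer `k ≠ 0` (Mordell), from
Thue's theorem (1909).
-/

namespace Fermat.Agent.Cor.Mord

open Polynomial

/-- Thue's theorem in the form used here -/
theorem thueStmt : ThueStmt := fun F hF hd m _ => by
  have hprim : F.IsPrimitive := hF.isPrimitive (by omega)
  have h1 := Thue.thue_equation_irreducible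
    ((IsPrimitive.Int.irreducible_iff_irreducible_map_cast hprim).1 hF) hd m
  refine h1.subset fun P hP => ?_
  exact hP

/-- **Mordell**, from Thue's theorem -/
theorem mordell_of (hT : ThueStmt) {k : ℤ} (hk : k ≠ 0) :
    {P : ℤ × ℤ | P.2 ^ 2 = P.1 ^ 3 + k}.Finite := by
  by_cases h : ∃ m : ℤ, m ^ 2 = k
  · obtain ⟨m, rfl⟩ := h
    exact finite_square hT (by rintro rfl; simp at hk)
  · refine finite_nonsquare hT fun r hr => h ?_
    have h1 : IsIntegral ℤ r := by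
      refine IsIntegral.of_pow (n := 2) (by norm_num) ?_
      rw [hr]
      exact isIntegral_algebraMap (R := ℤ) (A := ℚ) (x := k)
    obtain ⟨z, hz⟩ := IsIntegrallyClosed.isIntegral_iff.1 h1
    refine ⟨z, ?_⟩
    rw [← hz, eq_intCast] at hr
    exact_mod_cast hr

/-- **Mordell's theorem**: for every integer `k ≠ 0` the equation `y ^ 2 = x ^ 3 + k` has finitely
many integral solutions. -/
theorem mordell {k : ℤ} (hk : k ≠ 0) : {P : ℤ × ℤ | P.2 ^ 2 = P.1 ^ 3 + k}.Finite :=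
  mordell_of thueStmt hk

/-- All integral solutions of `y ^ 2 = x ^ 3 + k`, `k ≠ 0`, are bounded. -/
theorem exists_bound {k : ℤ} (hk : k ≠ 0) :
    ∃ B : ℤ, ∀ x y : ℤ, y ^ 2 = x ^ 3 + k → |x| ≤ B ∧ |y| ≤ B := by
  obtain ⟨B, hB⟩ := ((mordell hk).image fun P : ℤ × ℤ => max |P.1| |P.2|).bddAbove
  refine ⟨B, fun x y h => ?_⟩
  have h1 : max |x| |y| ≤ B := hB ⟨(x, y), h, rfl⟩
  exact ⟨(le_max_left _ _).trans h1, (le_max_right _ _).trans h1⟩

/-- `a y ^ 2 = b x ^ 3 + c` with `a b c ≠ 0` has finitely many integral solutions. -/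
theorem finite_of_ne_zero {a b c : ℤ} (ha : a ≠ 0) (hb : b ≠ 0) (hc : c ≠ 0) :
    {P : ℤ × ℤ | a * P.2 ^ 2 = b * P.1 ^ 3 + c}.Finite := by
  refine Set.Finite.of_finite_image (f := fun P : ℤ × ℤ => (a * b * P.1, a ^ 2 * b * P.2))
    ((mordell (k := a ^ 3 * b ^ 2 * c) (by positivity)).subset ?_) ?_
  · rintro _ ⟨⟨x, y⟩, h, rfl⟩
    have h' : a * y ^ 2 = b * x ^ 3 + c := h
    change (a ^ 2 * b * y) ^ 2 = (a * b * x) ^ 3 + a ^ 3 * b ^ 2 * c
    linear_combination a ^ 3 * b ^ 2 * h'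
  · rintro ⟨x, y⟩ - ⟨x', y'⟩ - h
    simp only [Prod.mk.injEq] at h
    rw [mul_left_cancel₀ (mul_ne_zero ha hb) h.1,
      mul_left_cancel₀ (mul_ne_zero (pow_ne_zero 2 ha) hb) h.2]

/-- The difference of a square and a cube tends to infinity: for every `M` there are finitely many
pairs with `0 < |y ^ 2 - x ^ 3| ≤ M`. -/
theorem finite_abs_sub_le (M : ℤ) :
    {P : ℤ × ℤ | P.2 ^ 2 ≠ P.1 ^ 3 ∧ |P.2 ^ 2 - P.1 ^ 3| ≤ M}.Finite := by
  have h1 : ((Finset.Icc (-M) M : Finset ℤ) : Set ℤ).Finite := Finset.finite_toSet _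
  have h2 : (⋃ k ∈ {k ∈ ((Finset.Icc (-M) M : Finset ℤ) : Set ℤ) | k ≠ 0},
      {P : ℤ × ℤ | P.2 ^ 2 = P.1 ^ 3 + k}).Finite :=
    (h1.subset (Set.sep_subset _ _)).biUnion fun k hk => mordell hk.2
  refine h2.subset ?_
  rintro ⟨x, y⟩ ⟨h3, h4⟩
  have h5 := abs_le.1 h4
  simp only [Set.mem_iUnion]
  refine ⟨y ^ 2 - x ^ 3, ⟨?_, sub_ne_zero.2 h3⟩, ?_⟩
  · simpa using h5
  · change y ^ 2 = x ^ 3 + (y ^ 2 - x ^ 3)
    ring

end Fermat.Agent.Cor.Mord
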