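import Fermat.Agent.Corollaries.Mord.Square

/-!
# `y ^ 2 = x ^ 3 + k` has finitely many integral solutions, `k` not a square

In `K = ℚ(θ)`, `θ ^ 2 = k`: `y + θ = f c ^ 3` with `f` in a finite set; comparison of the
coefficients of `θ` gives a cubic Thue equation for the coordinates of `c`.
-/

namespace Fermat.Agent.Cor.Mord

open NumberField IsDedekindDomain Polynomial IntermediateField
open Fermat.Agent.CFT.SUnits (ord ord_mul ord_pow valuation_eq_exp_neg_ord ord_eq_zero_iff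
  ord_nonneg_iff finite_ord_ne_zero)

/-- the field `ℚ(√k)` -/
theorem exists_quadratic (k : ℤ) : ∃ (K : Type) (_ : Field K) (_ : NumberField K) (θ : K),
    θ ^ 2 = k ∧ ∀ z : K, ∃ u v : ℚ, z = u + v * θ := by
  obtain ⟨θ, hθ⟩ := IsAlgClosed.exists_pow_nat_eq (k : ℂ) (n := 2) (by norm_num)
  have hroot : aeval θ (X ^ 2 - C (k : ℚ) : ℚ[X]) = 0 := by
    simp [hθ]
  have hint : IsIntegral ℚ θ := ⟨X ^ 2 - C (k : ℚ), monic_X_pow_sub_C _ two_ne_zero, by
    simpa [aeval_def] using hroot⟩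
  have hfd : FiniteDimensional ℚ ℚ⟮θ⟯ := adjoin.finiteDimensional hint
  have hnf : NumberField ℚ⟮θ⟯ := { to_charZero := inferInstance, to_finiteDimensional := hfd }
  refine ⟨ℚ⟮θ⟯, inferInstance, hnf, AdjoinSimple.gen ℚ θ, ?_, fun z => ?_⟩
  · apply Subtype.ext
    push_cast
    rw [AdjoinSimple.coe_gen, hθ]
  · have hdim : (adjoin.powerBasis hint).dim ≤ 2 := by
      rw [adjoin.powerBasis_dim]
      have h1 : (X ^ 2 - C (k : ℚ) : ℚ[X]) ≠ 0 := X_pow_sub_C_ne_zero two_pos _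
      have h2 := natDegree_le_of_dvd (minpoly.dvd ℚ θ hroot) h1
      rwa [natDegree_X_pow_sub_C] at h2
    obtain ⟨f, hf, hz⟩ := (adjoin.powerBasis hint).exists_eq_aeval z
    have hf1 : f.natDegree ≤ 1 := by omega
    refine ⟨f.coeff 0, f.coeff 1, ?_⟩
    rw [hz, adjoin.powerBasis_gen, eq_X_add_C_of_natDegree_le_one hf1]
    simp [add_comm]

section

variable {K : Type} [Field K] [NumberField K] {θ : K} {k : ℤ} (hθ : θ ^ 2 = k)
  (hns : ∀ r : ℚ, r ^ 2 ≠ k)

include hθ hns in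
theorem eq_zero_of_coord {u v : ℚ} (h : (u : K) + v * θ = 0) : u = 0 ∧ v = 0 := by
  have hv : v = 0 := by
    by_contra hv
    have hvK : (v : K) ≠ 0 := by exact_mod_cast hv
    apply hns (-u / v)
    have h1 : θ = ((-u / v : ℚ) : K) := by
      push_cast
      field_simp
      linear_combination h
    rw [h1] at hθ
    exact_mod_cast hθ
  subst hv
  refine ⟨?_, rfl⟩
  have : (u : K) = 0 := by simpa using h
  exact_mod_cast this

include hθ hns in
/-- the conjugate of an integral element is integral -/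
theorem isIntegral_conj {u v : ℚ} (h : IsIntegral ℤ ((u : K) + v * θ)) :
    IsIntegral ℤ ((u : K) - v * θ) := by
  obtain ⟨P, hP, hP0⟩ := h
  refine ⟨P, hP, ?_⟩
  rw [← aeval_def] at hP0 ⊢
  set G : ℚ[X] := (P.map (algebraMap ℤ ℚ)).comp (C u + C v * X) with hG
  have hGz : ∀ z : K, aeval z G = aeval ((u : K) + v * z) P := by
    intro z
    have h1 : aeval z (C u + C v * X : ℚ[X]) = (u : K) + v * z := by simp
    rw [hG, aeval_comp, aeval_map_algebraMap, h1]
  set D : ℚ[X] := X ^ 2 - C (k : ℚ) with hD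
  have hDm : D.Monic := monic_X_pow_sub_C _ two_ne_zero
  have hD0 : ∀ z : K, z ^ 2 = k → aeval z D = 0 := by
    intro z hz
    simp [hD, hz]
  set R : ℚ[X] := G %ₘ D with hR
  have hRd : R.natDegree ≤ 1 := by
    have h1 : R.natDegree < D.natDegree := natDegree_modByMonic_lt G hDm (by
      intro h
      have h2 := congrArg natDegree h
      rw [hD, natDegree_X_pow_sub_C, natDegree_one] at h2
      norm_num at h2)
    rw [hD, natDegree_X_pow_sub_C] at h1
    omega
  have hGR : G = R + D * (G /ₘ D) := (modByMonic_add_div G D).symm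
  have h1 : aeval θ R = 0 := by
    have h2 : aeval θ G = 0 := by rw [hGz, hP0]
    rw [hGR, map_add, map_mul, hD0 θ hθ, zero_mul, add_zero] at h2
    exact h2
  rw [eq_X_add_C_of_natDegree_le_one hRd] at h1
  have h3 := eq_zero_of_coord hθ hns (u := R.coeff 0) (v := R.coeff 1) (by
    rw [← h1]; simp [add_comm])
  have hR0 : R = 0 := by
    rw [eq_X_add_C_of_natDegree_le_one hRd, h3.1, h3.2]; simp
  have h4 : aeval (-θ) G = 0 := by
    rw [hGR, hR0, zero_add, map_mul, hD0 (-θ) (by rw [neg_sq, hθ]), zero_mul]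
  rw [hGz, mul_neg, ← sub_eq_add_neg] at h4
  exact h4

/-- a rational number which is integral in `K` is an integer -/
theorem exists_int_of_isIntegral {r : ℚ} (h : IsIntegral ℤ (r : K)) : ∃ z : ℤ, r = z := by
  have h1 : IsIntegral ℤ r := by
    have h2 : (r : K) = algebraMap ℚ K r := (eq_ratCast (algebraMap ℚ K) r).symm
    rw [h2] at h
    exact (isIntegral_algebraMap_iff (algebraMap ℚ K).injective).1 h
  obtain ⟨z, hz⟩ := IsIntegrallyClosed.isIntegral_iff.1 h1
  exact ⟨z, by rw [← hz]; rfl⟩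

include hθ hns in
/-- the coordinates of an integral element have denominator dividing `2 k` -/
theorem exists_coord {u v : ℚ} (h : IsIntegral ℤ ((u : K) + v * θ)) :
    (∃ U : ℤ, 2 * k * u = U) ∧ ∃ V : ℤ, 2 * k * v = V := by
  have h' := isIntegral_conj hθ hns h
  have e1 : ((2 * u : ℚ) : K) = ((u : K) + v * θ) + ((u : K) - v * θ) := by
    push_cast; ring
  have e2 : ((u ^ 2 - k * v ^ 2 : ℚ) : K) = ((u : K) + v * θ) * ((u : K) - v * θ) := by
    push_cast
    rw [← hθ]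
    ring
  obtain ⟨s, hs⟩ := exists_int_of_isIntegral (K := K) (r := 2 * u) (by rw [e1]; exact h.add h')
  obtain ⟨n, hn⟩ := exists_int_of_isIntegral (K := K) (r := u ^ 2 - k * v ^ 2)
    (by rw [e2]; exact h.mul h')
  refine ⟨⟨k * s, by push_cast; rw [← hs]; ring⟩, ?_⟩
  have h1 : (2 * k * v : ℚ) ^ 2 = ((k * (s ^ 2 - 4 * n) : ℤ) : ℚ) := by
    push_cast
    rw [← hs, ← hn]; ring
  have h2 : IsIntegral ℤ (2 * k * v : ℚ) := by
    refine IsIntegral.of_pow (n := 2) (by norm_num) ?_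
    rw [h1]
    exact isIntegral_algebraMap (R := ℤ) (A := ℚ)
  obtain ⟨z, hz⟩ := IsIntegrallyClosed.isIntegral_iff.1 h2
  exact ⟨z, by rw [← hz]; rfl⟩

end

/-- **`y ^ 2 = x ^ 3 + k`**, `k` not a square -/
theorem finite_nonsquare (hT : ThueStmt) {k : ℤ} (hns : ∀ r : ℚ, r ^ 2 ≠ k) :
    {P : ℤ × ℤ | P.2 ^ 2 = P.1 ^ 3 + k}.Finite := by
  apply finite_of_snd
  obtain ⟨K, _, _, θ, hθ, hgen⟩ := exists_quadratic k
  have hk0 : k ≠ 0 := by rintro rfl; exact hns 0 (by norm_num)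
  have hθ0 : θ ≠ 0 := by
    rintro rfl
    apply hk0
    have : (k : K) = 0 := by rw [← hθ]; ring
    exact_mod_cast this
  have hθi : IsIntegral ℤ θ := by
    refine IsIntegral.of_pow (n := 2) (by norm_num) ?_
    rw [hθ]
    exact isIntegral_algebraMap (R := ℤ) (A := K) (x := k)
  let θi : 𝓞 K := ⟨θ, hθi⟩
  let t : Kˣ := Units.mk0 (2 * θ) (mul_ne_zero two_ne_zero hθ0)
  let S : Set (HeightOneSpectrum (𝓞 K)) := {v | ord v t ≠ 0}
  have hS : S.Finite := finite_ord_ne_zero K t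
  obtain ⟨F, hF, hFr⟩ := exists_finite_reps (n := 3) (by norm_num) K S hS
  have h1 : ∀ f : Kˣ, ∃ p r : ℚ, (f : K) = p + r * θ := fun f => hgen f
  choose p r hpr using h1
  have h2 : ∀ f : Kˣ, ∃ N : ℤ, N ≠ 0 ∧ IsIntegral ℤ ((N : K) * (f : K)⁻¹) := by
    intro f
    have halg : IsAlgebraic ℤ (f : K)⁻¹ :=
      (IsFractionRing.isAlgebraic_iff ℤ ℚ K).2 (Algebra.IsAlgebraic.isAlgebraic _)
    obtain ⟨N, hN, hNi⟩ := halg.exists_integral_multiple
    refine ⟨N, hN, ?_⟩
    rwa [zsmul_eq_mul] at hNi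
  choose N hN0 hN using h2
  -- the cubic forms
  let L : Kˣ → ℤ := fun f => (p f).den * (r f).den
  have hL : ∀ f, L f ≠ 0 := fun f =>
    mul_ne_zero (by exact_mod_cast (p f).den_ne_zero) (by exact_mod_cast (r f).den_ne_zero)
  let α : Kˣ → ℤ := fun f => (p f).num * (r f).den
  let β : Kˣ → ℤ := fun f => (r f).num * (p f).den
  have hα : ∀ f, (α f : ℚ) = L f * p f := by
    intro f
    simp only [α, L]
    push_cast
    rw [← Rat.mul_den_eq_num (p f)]; ring
  have hβ : ∀ f, (β f : ℚ) = L f * r f := by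
    intro f
    simp only [β, L]
    push_cast
    rw [← Rat.mul_den_eq_num (r f)]; ring
  let M : Kˣ → ℤ := fun f => 2 * k * N f
  have hM : ∀ f, M f ≠ 0 := fun f => mul_ne_zero (mul_ne_zero two_ne_zero hk0) (hN0 f)
  let Sol : Kˣ → Set (ℤ × ℤ) := fun f =>
    {P : ℤ × ℤ | β f * P.1 ^ 3 + 3 * α f * P.1 ^ 2 * P.2 + 3 * k * β f * P.1 * P.2 ^ 2
      + k * α f * P.2 ^ 3 = L f * M f ^ 3}
  have hSol : ∀ f, (Sol f).Finite := by
    intro f
    refine cubic_finite hT (a := β f) (b := 3 * α f) (c := 3 * k * β f) (d := k * α f) ?_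
      (mul_ne_zero (hL f) (pow_ne_zero 3 (hM f)))
    have h3 : disc (β f) (3 * α f) (3 * k * β f) (k * α f)
        = -108 * k * (α f ^ 2 - k * β f ^ 2) ^ 2 := by rw [disc]; ring
    rw [h3]
    refine mul_ne_zero (mul_ne_zero (by norm_num) hk0) (pow_ne_zero 2 ?_)
    intro h4
    have h5 : p f ^ 2 = k * r f ^ 2 := by
      have h6 : ((α f : ℚ)) ^ 2 = k * (β f : ℚ) ^ 2 := by
        have : (α f : ℚ) ^ 2 - k * (β f : ℚ) ^ 2 = 0 := by exact_mod_cast h4
        linarith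
      rw [hα, hβ] at h6
      have hLq : ((L f : ℤ) : ℚ) ^ 2 ≠ 0 := pow_ne_zero 2 (by exact_mod_cast hL f)
      have h7 : ((L f : ℤ) : ℚ) ^ 2 * p f ^ 2 = (L f : ℚ) ^ 2 * (k * r f ^ 2) := by
        linear_combination h6
      exact mul_left_cancel₀ hLq h7
    by_cases hr : r f = 0
    · have hp : p f = 0 := by
        rw [hr] at h5
        have : p f ^ 2 = 0 := by rw [h5]; ring
        exact pow_eq_zero_iff two_ne_zero |>.1 this
      have := hpr f
      rw [hr, hp] at this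
      exact f.ne_zero (by rw [this]; simp)
    · refine hns (p f / r f) ?_
      rw [div_pow, h5]
      field_simp
  -- the value of `y`
  let φ : Kˣ → ℤ × ℤ → ℤ := fun f P =>
    ⌊(p f * ((P.1 / M f : ℚ) ^ 3 + 3 * k * (P.1 / M f) * (P.2 / M f) ^ 2) +
      k * r f * (3 * (P.1 / M f) ^ 2 * (P.2 / M f) + k * (P.2 / M f) ^ 3) : ℚ)⌋
  refine (hF.biUnion fun f _ => (hSol f).image (φ f)).subset ?_
  rintro y ⟨x, hxy⟩
  have hy2 : (y : ℚ) ^ 2 ≠ k := hns y
  have hx : x ≠ 0 := by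
    rintro rfl
    apply hy2
    exact_mod_cast (by rw [hxy]; ring : y ^ 2 = k)
  have hprod : ((y : K) + θ) * (y - θ) = (x : K) ^ 3 := by
    have h3 : ((y : K)) ^ 2 = (x : K) ^ 3 + k := by exact_mod_cast hxy
    linear_combination h3 - hθ
  have hxK : (x : K) ≠ 0 := by exact_mod_cast hx
  have hne1 : (y : K) + θ ≠ 0 := by
    intro h; rw [h, zero_mul] at hprod; exact hxK (pow_eq_zero_iff three_ne_zero |>.1 hprod.symm)
  have hne2 : (y : K) - θ ≠ 0 := by
    intro h; rw [h, mul_zero] at hprod; exact hxK (pow_eq_zero_iff three_ne_zero |>.1 hprod.symm)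
  let a : Kˣ := Units.mk0 _ hne1
  let b : Kˣ := Units.mk0 _ hne2
  let z : Kˣ := Units.mk0 _ hxK
  have hz : a * b = z ^ 3 := Units.ext hprod
  have hva : ∀ v ∉ S, ((3 : ℕ) : ℤ) ∣ ord v a := by
    intro v hv
    simp only [S, Set.mem_ofPred_eq, not_not] at hv
    refine three_dvd_ord (a := a) (b := b) (t := t) (z := z) (A := (y : 𝓞 K) + θi)
      (B := (y : 𝓞 K) - θi) ?_ ?_ ?_ hz hv
    · change (y : K) + θ = _; push_cast; rfl
    · change (y : K) - θ = _; push_cast; rfl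
    · change (y : K) + θ - (y - θ) = 2 * θ; ring
  obtain ⟨f, hf, c, hc⟩ := hFr a hva
  have hc' : (y : K) + θ = f * (c : K) ^ 3 := congrArg Units.val hc
  obtain ⟨u, v, huv⟩ := hgen c
  -- denominators
  have hint : IsIntegral ℤ ((N f : K) * c) := by
    refine IsIntegral.of_pow (n := 3) (by norm_num) ?_
    have h3 : ((N f : K) * c) ^ 3 = (N f : K) ^ 2 * (y + θ) * ((N f : K) * (f : K)⁻¹) := by
      rw [hc']
      have := f.ne_zero
      field_simp
    rw [h3]
    refine IsIntegral.mul (IsIntegral.mul (IsIntegral.pow ?_ 2) (IsIntegral.add ?_ hθi)) (hN f)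
    · exact isIntegral_algebraMap (R := ℤ) (A := K) (x := N f)
    · exact isIntegral_algebraMap (R := ℤ) (A := K) (x := y)
  have h3 : ((N f : K) * c) = ((N f * u : ℚ) : K) + ((N f * v : ℚ) : K) * θ := by
    rw [huv]; push_cast; ring
  rw [h3] at hint
  obtain ⟨⟨U, hU⟩, ⟨V, hV⟩⟩ := exists_coord hθ hns hint
  have hMq : ((M f : ℤ) : ℚ) ≠ 0 := by exact_mod_cast hM f
  have hu : u = U / M f := by
    rw [eq_div_iff hMq, ← hU]
    simp only [M]; push_cast; ring
  have hv' : v = V / M f := by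
    rw [eq_div_iff hMq, ← hV]
    simp only [M]; push_cast; ring
  -- coordinates
  have h4 : (((p f * (u ^ 3 + 3 * k * u * v ^ 2) + k * r f * (3 * u ^ 2 * v + k * v ^ 3) - y : ℚ)) : K)
      + (((r f * (u ^ 3 + 3 * k * u * v ^ 2) + p f * (3 * u ^ 2 * v + k * v ^ 3) - 1 : ℚ)) : K) * θ
      = 0 := by
    rw [hpr f, huv] at hc'
    push_cast
    have e3 : θ ^ 3 = k * θ := by rw [pow_succ, hθ]
    have e4 : θ ^ 4 = (k : K) ^ 2 := by
      rw [show (4 : ℕ) = 2 * 2 from rfl, pow_mul, hθ]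
    linear_combination (-1 : K) * hc' + (-(p f : K) * 3 * u * v ^ 2 - 3 * r f * u ^ 2 * v) * hθ
      + (-(p f : K) * v ^ 3 - 3 * r f * u * v ^ 2) * e3 - (r f : K) * v ^ 3 * e4
  obtain ⟨h5, h6⟩ := eq_zero_of_coord hθ hns h4
  simp only [Set.mem_iUnion]
  refine ⟨f, hf, ⟨U, V⟩, ?_, ?_⟩
  · change β f * U ^ 3 + 3 * α f * U ^ 2 * V + 3 * k * β f * U * V ^ 2
      + k * α f * V ^ 3 = L f * M f ^ 3
    have hUq : (U : ℚ) = M f * u := by rw [hu]; field_simp
    have hVq : (V : ℚ) = M f * v := by rw [hv']; field_simp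
    have h7 : ((β f * U ^ 3 + 3 * α f * U ^ 2 * V + 3 * k * β f * U * V ^ 2
      + k * α f * V ^ 3 : ℤ) : ℚ) = ((L f * M f ^ 3 : ℤ) : ℚ) := by
      push_cast
      rw [hα, hβ, hUq, hVq]
      linear_combination (L f : ℚ) * (M f : ℚ) ^ 3 * h6
    exact_mod_cast h7
  · simp only [φ]
    rw [← hu, ← hv']
    have h8 : (p f * (u ^ 3 + 3 * k * u * v ^ 2) + k * r f * (3 * u ^ 2 * v + k * v ^ 3) : ℚ) = y := by
      linarith
    rw [h8, Int.floor_intCast]

end Fermat.Agent.Cor.Mord
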