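import Mathlib
import Fermat.Agent.CFT.SUnits

/-!
# The elements of a number field with valuations divisible by `n` outside a finite set

They fall in finitely many classes modulo `n`-th powers (`Fermat/Agent/MW/Selmer.lean` is the case
`n = 2`; the proof is the same).
-/

set_option autoImplicit false

namespace Fermat.Agent.Cor.Mord

open NumberField IsDedekindDomain Fermat.Agent.CFT
open Fermat.Agent.CFT.SUnits (ord div idealOf div_apply exists_div_eq_iff div_eq_zero_iff idealOf_add)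

/-- Let `S` be a finite set of primes of the number field `K`. The elements of `Kˣ` whose valuations
outside `S` are divisible by `n` fall in finitely many classes modulo `n`-th powers. -/
theorem exists_finite_reps {n : ℕ} (hn : n ≠ 0) (K : Type*) [Field K] [NumberField K]
    (S : Set (HeightOneSpectrum (𝓞 K))) (hS : S.Finite) :
    ∃ F : Set Kˣ, F.Finite ∧ ∀ a : Kˣ, (∀ v ∉ S, (n : ℤ) ∣ ord v a) →
      ∃ f ∈ F, ∃ c : Kˣ, a = f * c ^ n := by
  classical
  have : NeZero n := ⟨hn⟩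
  have hnZ : (n : ℤ) ≠ 0 := by exact_mod_cast hn
  -- representatives of units
  obtain ⟨U, hU, hUs⟩ : ∃ U : Set (𝓞 K)ˣ, U.Finite ∧ ∀ u : (𝓞 K)ˣ, ∃ w ∈ U, ∃ c, u = w * c ^ n := by
    have h1 : (powMonoidHom (α := (𝓞 K)ˣ) n).range.FiniteIndex := by
      have hfg : Group.FG (𝓞 K)ˣ := by
        rw [Group.fg_iff_monoid_fg]
        exact inferInstance
      exact Subgroup.finiteIndex_range_powMonoidHom_of_fg _ hn
    have h2 : Finite ((𝓞 K)ˣ ⧸ (powMonoidHom (α := (𝓞 K)ˣ) n).range) := inferInstance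
    refine ⟨Set.range (fun q : (𝓞 K)ˣ ⧸ (powMonoidHom (α := (𝓞 K)ˣ) n).range => q.out),
      Set.finite_range _, fun u => ⟨_, ⟨(u : (𝓞 K)ˣ ⧸ (powMonoidHom (α := (𝓞 K)ˣ) n).range), rfl⟩,
      ?_⟩⟩
    have h3 := QuotientGroup.out_eq' (u : (𝓞 K)ˣ ⧸ (powMonoidHom (α := (𝓞 K)ˣ) n).range)
    rw [QuotientGroup.eq] at h3
    obtain ⟨c, hc⟩ := h3
    refine ⟨c, ?_⟩
    change c ^ n = _ at hc
    rw [hc]
    simp
  -- the divisor divided by `n`
  let E : Kˣ → (HeightOneSpectrum (𝓞 K) →₀ ℤ) := fun a =>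
    (div (R := 𝓞 K) a).mapRange (fun m : ℤ => m / n) (by simp)
  have hE : ∀ a v, (E a) v = ord v a / n := fun a v => by
    simp [E, Finsupp.mapRange_apply]
  let φ : Kˣ → (S → ZMod n) × ClassGroup (𝓞 K) := fun a =>
    (fun v => (ord v.1 a : ZMod n), ClassGroup.mk K (idealOf K (E a)))
  have : Finite S := hS.to_subtype
  have hfin : Finite ((S → ZMod n) × ClassGroup (𝓞 K)) := inferInstance
  let X : Set Kˣ := {a | ∀ v ∉ S, (n : ℤ) ∣ ord v a}
  -- representatives
  let Y : Set ((S → ZMod n) × ClassGroup (𝓞 K)) := φ '' X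
  have hYX : ∀ y : Y, ∃ a ∈ X, φ a = y := fun y => y.2
  choose g hgX hgφ using hYX
  refine ⟨Set.range (fun p : Y × U => g p.1 * Units.map (algebraMap (𝓞 K) K : 𝓞 K →* K) p.2.1),
    ?_, ?_⟩
  · have : Finite U := hU.to_subtype
    exact Set.finite_range _
  · intro a ha
    let y : Y := ⟨φ a, a, ha, rfl⟩
    have hφ : φ (g y) = φ a := hgφ y
    have h1 : ∀ v : S, (ord v.1 (g y) : ZMod n) = (ord v.1 a : ZMod n) := fun v =>
      congrFun (congrArg Prod.fst hφ) v
    have h2 : ClassGroup.mk K (idealOf K (E (g y))) = ClassGroup.mk K (idealOf K (E a)) :=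
      congrArg Prod.snd hφ
    have h3 : ClassGroup.mk K (idealOf K (E a - E (g y))) = 1 := by
      have h4 : idealOf K (E a) = idealOf K (E a - E (g y)) * idealOf K (E (g y)) := by
        rw [← idealOf_add, sub_add_cancel]
      rw [h4, map_mul] at h2
      exact (mul_eq_right.mp h2.symm)
    obtain ⟨c, hc⟩ := (exists_div_eq_iff K _).mpr h3
    have h5 : div (R := 𝓞 K) (a * (g y)⁻¹ * (c⁻¹) ^ n) = 0 := by
      ext v
      have h6 := DFunLike.congr_fun hc v
      rw [div_apply, Finsupp.sub_apply, hE, hE] at h6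
      rw [SUnits.div_mul, SUnits.div_mul, SUnits.div_inv, SUnits.div_pow, SUnits.div_inv, Finsupp.add_apply, Finsupp.add_apply,
        Finsupp.neg_apply, Finsupp.smul_apply, Finsupp.neg_apply, div_apply, div_apply, div_apply,
        h6, Finsupp.zero_apply]
      have e1 := Int.emod_add_mul_ediv (ord v a) n
      have e2 := Int.emod_add_mul_ediv (ord v (g y)) n
      have e3 : ord v a % n = ord v (g y) % n := by
        by_cases hv : v ∈ S
        · exact ((ZMod.intCast_eq_intCast_iff' _ _ _).1 (h1 ⟨v, hv⟩)).symm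
        · rw [Int.emod_eq_zero_of_dvd (ha v hv), Int.emod_eq_zero_of_dvd (hgX y v hv)]
      simp only [nsmul_eq_mul]
      linear_combination e2 - e1 + e3
    obtain ⟨u, hu⟩ := (div_eq_zero_iff K _).mp h5
    obtain ⟨w, hw, d, hd⟩ := hUs u
    refine ⟨_, ⟨⟨y, ⟨w, hw⟩⟩, rfl⟩, c * Units.map (algebraMap (𝓞 K) K : 𝓞 K →* K) d, ?_⟩
    have h9 : a = g y * c ^ n * Units.map (algebraMap (𝓞 K) K : 𝓞 K →* K) u := by
      rw [hu]
      apply Units.ext
      push_cast
      have hg0 : (g y : K) ≠ 0 := (g y).ne_zero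
      have hc0 : (c : K) ≠ 0 := c.ne_zero
      field_simp
      rw [← mul_pow, mul_one_div, div_self hc0, one_pow]
    rw [h9, hd, map_mul, map_pow]
    apply Units.ext
    push_cast
    ring

end Fermat.Agent.Cor.Mord
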