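import Fermat.Agent.Corollaries.Mord.Cubic
import Fermat.Agent.Corollaries.Mord.Reps

/-!
# `y ^ 2 = x ^ 3 + m ^ 2` has finitely many integral solutions

`(y - m) (y + m) = x ^ 3`, so `y - m = f c ^ 3` and `y + m = g d ^ 3` with `f`, `g` in a finite set.
-/

namespace Fermat.Agent.Cor.Mord

open NumberField IsDedekindDomain
open Fermat.Agent.CFT.SUnits (ord ord_mul ord_pow valuation_eq_exp_neg_ord ord_eq_zero_iff
  ord_nonneg_iff finite_ord_ne_zero)

/-- the valuations of two integers of `K` with product a cube, away from their difference -/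
theorem three_dvd_ord {K : Type*} [Field K] [NumberField K] {a b t z : Kˣ} {A B : 𝓞 K}
    (ha : (a : K) = A) (hb : (b : K) = B) (hab : (a : K) - b = t) (hz : a * b = z ^ 3)
    {v : HeightOneSpectrum (𝓞 K)} (ht : ord v t = 0) : (3 : ℤ) ∣ ord v a := by
  have h1 : 0 ≤ ord v a := by
    rw [ord_nonneg_iff, ha]; exact v.valuation_le_one A
  have h2 : 0 ≤ ord v b := by
    rw [ord_nonneg_iff, hb]; exact v.valuation_le_one B
  have h3 : ord v a + ord v b = 3 * ord v z := by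
    rw [← ord_mul, hz, ord_pow]; push_cast; ring
  rcases h1.eq_or_lt with h4 | h4
  · rw [← h4]; exact dvd_zero _
  rcases h2.eq_or_lt with h5 | h5
  · exact ⟨ord v z, by linarith⟩
  exfalso
  have h6 : v.valuation K (a : K) < 1 := by
    rw [valuation_eq_exp_neg_ord, ← WithZero.exp_zero, WithZero.exp_lt_exp]; omega
  have h7 : v.valuation K (b : K) < 1 := by
    rw [valuation_eq_exp_neg_ord, ← WithZero.exp_zero, WithZero.exp_lt_exp]; omega
  have h8 : v.valuation K (t : K) = 1 := (ord_eq_zero_iff K v t).1 ht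
  have h9 : v.valuation K (t : K) < 1 := by
    rw [← hab]
    exact lt_of_le_of_lt (Valuation.map_sub _ _ _) (max_lt h6 h7)
  exact h9.ne h8

/-- finiteness for `y` implies finiteness for `(x, y)` -/
theorem finite_of_snd {k : ℤ} (h : {y : ℤ | ∃ x : ℤ, y ^ 2 = x ^ 3 + k}.Finite) :
    {P : ℤ × ℤ | P.2 ^ 2 = P.1 ^ 3 + k}.Finite := by
  refine Set.Finite.of_finite_image (f := Prod.snd) (h.subset ?_) ?_
  · rintro y ⟨⟨x, y'⟩, h1, rfl⟩
    exact ⟨x, h1⟩
  · rintro ⟨x, y⟩ h1 ⟨x', y'⟩ h2 h3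
    have h1' : y ^ 2 = x ^ 3 + k := h1
    have h2' : y' ^ 2 = x' ^ 3 + k := h2
    have h3' : y = y' := h3
    have h4 : x ^ 3 = x' ^ 3 := by rw [h3'] at h1'; linarith
    have h5 : x = x' := (Odd.strictMono_pow (R := ℤ) (n := 3) (by decide)).injective h4
    rw [h5, h3']

/-- a rational number whose cube is an integer is an integer -/
theorem exists_int_of_cube {c : ℚ} {n : ℤ} (h : c ^ 3 = n) : ∃ z : ℤ, c = z := by
  have h1 : IsIntegral ℤ c := by
    refine IsIntegral.of_pow (n := 3) (by norm_num) ?_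
    rw [h]
    exact isIntegral_algebraMap (R := ℤ) (A := ℚ) (x := n)
  obtain ⟨z, hz⟩ := IsIntegrallyClosed.isIntegral_iff.1 h1
  exact ⟨z, by rw [← hz]; rfl⟩

/-- **`y ^ 2 = x ^ 3 + m ^ 2`**, `m ≠ 0` -/
theorem finite_square (hT : ThueStmt) {m : ℤ} (hm : m ≠ 0) :
    {P : ℤ × ℤ | P.2 ^ 2 = P.1 ^ 3 + m ^ 2}.Finite := by
  apply finite_of_snd
  have hmQ : (-(2 * m) : ℚ) ≠ 0 := by
    have : (m : ℚ) ≠ 0 := by exact_mod_cast hm
    simpa using this
  let t : ℚˣ := Units.mk0 (-(2 * m) : ℚ) hmQ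
  have hmQ' : (2 * m : ℚ) ≠ 0 := by simpa using hmQ
  let t' : ℚˣ := Units.mk0 (2 * m : ℚ) hmQ'
  let S : Set (HeightOneSpectrum (𝓞 ℚ)) := {v | ord v t ≠ 0} ∪ {v | ord v t' ≠ 0}
  have hS : S.Finite := (finite_ord_ne_zero ℚ t).union (finite_ord_ne_zero ℚ t')
  obtain ⟨F, hF, hFr⟩ := exists_finite_reps (n := 3) (by norm_num) ℚ S hS
  -- the cubic forms
  let A : ℚˣ → ℤ := fun f => (f : ℚ).num ^ 2 * (f : ℚ).den
  have hA : ∀ f : ℚˣ, A f ≠ 0 := fun f => mul_ne_zero (pow_ne_zero 2 (Rat.num_ne_zero.2 f.ne_zero))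
    (by exact_mod_cast (f : ℚ).den_ne_zero)
  let Sol : ℚˣ → ℚˣ → Set (ℤ × ℤ) := fun f g =>
    {P : ℤ × ℤ | -A g * P.1 ^ 3 + 0 * P.1 ^ 2 * P.2 + 0 * P.1 * P.2 ^ 2 + A f * P.2 ^ 3
      = 2 * m * (A f * A g)}
  have hSol : ∀ f g, (Sol f g).Finite := by
    intro f g
    refine cubic_finite hT ?_ (mul_ne_zero (mul_ne_zero two_ne_zero hm) (mul_ne_zero (hA f) (hA g)))
    have : disc (-A g) 0 0 (A f) = -27 * (A g ^ 2 * A f ^ 2) := by rw [disc]; ring
    rw [this]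
    exact mul_ne_zero (by norm_num) (mul_ne_zero (pow_ne_zero 2 (hA g)) (pow_ne_zero 2 (hA f)))
  have hfin : (({m, -m} : Set ℤ) ∪ ⋃ f ∈ F, ⋃ g ∈ F,
      (fun P : ℤ × ℤ => P.1 ^ 3 / A f + m) '' Sol f g).Finite := by
    refine ((Set.finite_singleton _).insert _).union ?_
    exact hF.biUnion fun f _ => hF.biUnion fun g _ => (hSol f g).image _
  refine hfin.subset ?_
  rintro y ⟨x, hxy⟩
  by_cases hx : x = 0
  · left
    rw [hx] at hxy
    have h1 : (y - m) * (y + m) = 0 := by linear_combination hxy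
    rcases mul_eq_zero.1 h1 with h2 | h2
    · left; linarith
    · right
      rw [Set.mem_singleton_iff]; linarith
  right
  have hprod : (y - m) * (y + m) = x ^ 3 := by linear_combination hxy
  have h1 : y - m ≠ 0 := by
    intro h; rw [h, zero_mul] at hprod
    exact hx (pow_eq_zero_iff three_ne_zero |>.1 hprod.symm)
  have h2 : y + m ≠ 0 := by
    intro h; rw [h, mul_zero] at hprod
    exact hx (pow_eq_zero_iff three_ne_zero |>.1 hprod.symm)
  let a : ℚˣ := Units.mk0 ((y - m : ℤ) : ℚ) (by exact_mod_cast h1)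
  let b : ℚˣ := Units.mk0 ((y + m : ℤ) : ℚ) (by exact_mod_cast h2)
  let z : ℚˣ := Units.mk0 ((x : ℤ) : ℚ) (by exact_mod_cast hx)
  have hz : a * b = z ^ 3 := by
    apply Units.ext
    change ((y - m : ℤ) : ℚ) * ((y + m : ℤ) : ℚ) = ((x : ℤ) : ℚ) ^ 3
    exact_mod_cast hprod
  have hva : ∀ v ∉ S, ((3 : ℕ) : ℤ) ∣ ord v a := by
    intro v hv
    simp only [S, Set.mem_union, Set.mem_ofPred_eq, not_or, not_not] at hv
    refine three_dvd_ord (a := a) (b := b) (t := t) (z := z) (A := ((y - m : ℤ) : 𝓞 ℚ))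
      (B := ((y + m : ℤ) : 𝓞 ℚ)) ?_ ?_ ?_ hz hv.1
    · change ((y - m : ℤ) : ℚ) = _; push_cast; rfl
    · change ((y + m : ℤ) : ℚ) = _; push_cast; rfl
    · change ((y - m : ℤ) : ℚ) - ((y + m : ℤ) : ℚ) = -(2 * m); push_cast; ring
  have hvb : ∀ v ∉ S, ((3 : ℕ) : ℤ) ∣ ord v b := by
    intro v hv
    simp only [S, Set.mem_union, Set.mem_ofPred_eq, not_or, not_not] at hv
    refine three_dvd_ord (a := b) (b := a) (t := t') (z := z) (A := ((y + m : ℤ) : 𝓞 ℚ))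
      (B := ((y - m : ℤ) : 𝓞 ℚ)) ?_ ?_ ?_ (by rw [mul_comm, hz]) hv.2
    · change ((y + m : ℤ) : ℚ) = _; push_cast; rfl
    · change ((y - m : ℤ) : ℚ) = _; push_cast; rfl
    · change ((y + m : ℤ) : ℚ) - ((y - m : ℤ) : ℚ) = (2 * m); push_cast; ring
  obtain ⟨f, hf, c, hc⟩ := hFr a hva
  obtain ⟨g, hg, d, hd⟩ := hFr b hvb
  have key : ∀ (f c : ℚˣ) (n : ℤ), (n : ℚ) = f * (c : ℚ) ^ 3 →
      ∃ C : ℤ, C ^ 3 = A f * n := by
    intro f c n hn
    have hfd : ((f : ℚ).den : ℚ) ≠ 0 := by exact_mod_cast (f : ℚ).den_ne_zero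
    have hfn : (f : ℚ) * (f : ℚ).den = (f : ℚ).num := Rat.mul_den_eq_num _
    have h3 : (((f : ℚ).num : ℚ) * c) ^ 3 = ((A f * n : ℤ) : ℚ) := by
      simp only [A]
      push_cast
      rw [hn, mul_pow]
      have : ((f : ℚ).num : ℚ) ^ 3 = ((f : ℚ).num : ℚ) ^ 2 * (f * (f : ℚ).den) := by
        rw [hfn]; ring
      rw [this]; ring
    obtain ⟨C, hC⟩ := exists_int_of_cube h3
    refine ⟨C, ?_⟩
    rw [hC] at h3
    exact_mod_cast h3
  obtain ⟨C, hC⟩ := key f c (y - m) (congrArg Units.val hc)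
  obtain ⟨D, hD⟩ := key g d (y + m) (congrArg Units.val hd)
  simp only [Set.mem_iUnion]
  refine ⟨f, hf, g, hg, ⟨C, D⟩, ?_, ?_⟩
  · change -A g * C ^ 3 + 0 * C ^ 2 * D + 0 * C * D ^ 2 + A f * D ^ 3 = 2 * m * (A f * A g)
    rw [hC, hD]; ring
  · change C ^ 3 / A f + m = y
    rw [hC, Int.mul_ediv_cancel_left _ (hA f)]; ring

end Fermat.Agent.Cor.Mord
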